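/-
GE9-TANGROW-ALG (S59 pre-work, E9b, helper63) — file 2: cardinality of a module generated by
elements killed by a square matrix with nonzero determinant (over a DVR with finite residue field):
`#(span (range x)) ≤ #(O ⧸ (det b))`.  Uses helper26's `Lat.card_quotient_span_rows`.
-/
import Mathlib
import Fermat.Agent.GE9.NumCrit.Lat

set_option autoImplicit false

namespace Fermat.Agent.GE9.TanGrow

open Fermat.Agent.GE9.NumCrit

variable {O : Type*} [CommRing O] [IsDomain O] [IsDiscreteValuationRing O]
  [Finite (IsLocalRing.ResidueField O)]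

/-- `O ⧸ (d)` has positive cardinality (is finite) for `d ≠ 0`. -/
theorem card_quotient_span_singleton_pos {d : O} (hd : d ≠ 0) :
    0 < Nat.card (O ⧸ Ideal.span {d}) := by
  obtain ⟨n, hn⟩ := exists_span_singleton_eq_pow hd
  rw [hn, card_quotient_maximalIdeal_pow]
  have : 0 < Nat.card (O ⧸ IsLocalRing.maximalIdeal O) := by
    have : Finite (O ⧸ IsLocalRing.maximalIdeal O) :=
      (inferInstance : Finite (IsLocalRing.ResidueField O))
    exact Nat.card_pos
  exact pow_pos this n

theorem finite_quotient_span_singleton {d : O} (hd : d ≠ 0) : Finite (O ⧸ Ideal.span {d}) :=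
  Nat.finite_of_card_ne_zero (card_quotient_span_singleton_pos hd).ne'

variable {Φ : Type*} [AddCommGroup Φ] [Module O Φ]

/-- **Generators killed by a nondegenerate matrix.** -/
theorem card_span_range_le {m : ℕ} (x : Fin m → Φ) (b : Matrix (Fin m) (Fin m) O)
    (hb : b.det ≠ 0) (hrel : ∀ i, ∑ j, b i j • x j = 0) :
    Finite (Submodule.span O (Set.range x)) ∧
      Nat.card (Submodule.span O (Set.range x)) ≤ Nat.card (O ⧸ Ideal.span {b.det}) := by
  classical
  set N : Submodule O (Fin m → O) := Submodule.span O (Set.range fun i => b i) with hN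
  set g : (Fin m → O) →ₗ[O] Φ := Fintype.linearCombination O x with hg
  have hcardN := card_quotient_span_rows b hb
  have hpos := card_quotient_span_singleton_pos hb
  have : Finite ((Fin m → O) ⧸ N) := Nat.finite_of_card_ne_zero (by rw [hcardN]; exact hpos.ne')
  have hker : N ≤ LinearMap.ker g := by
    rw [hN, Submodule.span_le]
    rintro _ ⟨i, rfl⟩
    rw [SetLike.mem_coe, LinearMap.mem_ker, hg, Fintype.linearCombination_apply]
    exact hrel i
  have hrange : LinearMap.range g = Submodule.span O (Set.range x) := by
    rw [hg, Fintype.range_linearCombination]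
  -- the induced surjection `(Fin m → O) ⧸ N → range g`
  let gq : ((Fin m → O) ⧸ N) →ₗ[O] Φ := N.liftQ g hker
  have hgq : LinearMap.range gq = Submodule.span O (Set.range x) := by
    rw [Submodule.range_liftQ, hrange]
  let gq' : ((Fin m → O) ⧸ N) → Submodule.span O (Set.range x) := fun c =>
    ⟨gq c, by rw [← hgq]; exact LinearMap.mem_range_self gq c⟩
  have hsurj : Function.Surjective gq' := by
    rintro ⟨y, hy⟩
    rw [← hgq] at hy
    obtain ⟨c, rfl⟩ := hy
    exact ⟨c, rfl⟩
  have : Finite (Submodule.span O (Set.range x)) := Finite.of_surjective gq' hsurj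
  refine ⟨inferInstance, ?_⟩
  rw [← hcardN]
  exact Nat.card_le_card_of_surjective gq' hsurj

end Fermat.Agent.GE9.TanGrow
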