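/-
GE9-TANGROW-ALG (S59 pre-work, E9b, helper63) — file 3: the tame relation modulo `𝔭'²`.

`π' : R' →ₐ[O] O` an augmented `O`-algebra, `𝔭' = ker π'`, `A = R' ⧸ 𝔭'²`.
For `F T ∈ M₂(R')` with `T ≡ 1 mod 𝔭'`, `det T = 1` and `F T = T^q F`, the classes
`x̄_ij ∈ A` of the entries of `X = T − 1` satisfy `x̄₁₁ = −x̄₀₀` and `F₀ x̄ = q x̄ F₀`
(`F₀ = π'(F) ∈ M₂(O)`), hence `Bmat F₀ q` kills `(x̄₀₀, x̄₀₁, x̄₁₀)`.
Mathlib only (+ DetB).
-/
import Mathlib
import Fermat.Agent.GE9.TanGrow.DetB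

set_option autoImplicit false

namespace Fermat.Agent.GE9.TanGrow

open Matrix

/-- `(1 + x)^k = 1 + k • x` when `x * x = 0`. -/
theorem one_add_pow_of_mul_self_eq_zero {S : Type*} [Semiring S] (x : S) (hx : x * x = 0)
    (k : ℕ) : (1 + x) ^ k = 1 + k • x := by
  induction k with
  | zero => simp
  | succ k ih =>
    rw [pow_succ, ih, add_mul, mul_add, mul_add, one_mul, one_mul, mul_one, smul_mul_assoc, hx,
      smul_zero, add_zero, succ_nsmul, add_assoc, add_comm x]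

variable {O R' : Type*} [CommRing O] [CommRing R'] [Algebra O R'] (π' : R' →ₐ[O] O)

/-- the augmentation ideal. -/
abbrev augIdeal : Ideal R' := RingHom.ker (π' : R' →+* O)

theorem mem_augIdeal {r : R'} : r ∈ augIdeal π' ↔ π' r = 0 := by
  rw [augIdeal, RingHom.mem_ker]; rfl

/-- the square-zero quotient `A = R' ⧸ 𝔭'²`. -/
abbrev SqQuot : Type _ := R' ⧸ (augIdeal π') ^ 2

/-- the quotient map `R' → A` as an `O`-algebra hom. -/
def mkQ : R' →ₐ[O] SqQuot π' := Ideal.Quotient.mkₐ O _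

theorem mkQ_eq_zero_iff {r : R'} : mkQ π' r = 0 ↔ r ∈ (augIdeal π') ^ 2 := by
  rw [mkQ, Ideal.Quotient.mkₐ_eq_mk, Ideal.Quotient.eq_zero_iff_mem]

theorem mkQ_surjective : Function.Surjective (mkQ π') :=
  Ideal.Quotient.mkₐ_surjective O _

theorem mkQ_mul_eq_zero {a b : R'} (ha : π' a = 0) (hb : π' b = 0) :
    mkQ π' a * mkQ π' b = 0 := by
  rw [← map_mul, mkQ_eq_zero_iff, pow_two]
  exact Ideal.mul_mem_mul ((mem_augIdeal π').mpr ha) ((mem_augIdeal π').mpr hb)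

theorem mkQ_mul_eq_smul (r : R') {a : R'} (ha : π' a = 0) :
    mkQ π' r * mkQ π' a = π' r • mkQ π' a := by
  have h1 : π' (r - algebraMap O R' (π' r)) = 0 := by
    rw [map_sub, AlgHom.commutes, Algebra.algebraMap_self_apply, sub_self]
  have h2 := mkQ_mul_eq_zero π' h1 ha
  rw [map_sub, sub_mul, sub_eq_zero] at h2
  rw [h2, AlgHom.commutes, ← Algebra.smul_def]

section Rel

variable (F T : Matrix (Fin 2) (Fin 2) R') (q : ℕ)

/-- the class in `A` of the `(i, j)` entry of `T − 1`. -/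
def xbar (i j : Fin 2) : SqQuot π' := mkQ π' (T i j - (1 : Matrix (Fin 2) (Fin 2) R') i j)

variable {T} in
theorem aug_entry (hT : T.map π' = 1) (i j : Fin 2) :
    π' (T i j - (1 : Matrix (Fin 2) (Fin 2) R') i j) = 0 := by
  have h := congrFun (congrFun hT i) j
  rw [Matrix.map_apply] at h
  rw [map_sub, h]
  by_cases hij : i = j
  · subst hij; simp
  · simp [Matrix.one_apply_ne hij]

variable {T} in
theorem xbar_mul_xbar (hT : T.map π' = 1) (i j k l : Fin 2) :
    xbar π' T i j * xbar π' T k l = 0 :=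
  mkQ_mul_eq_zero π' (aug_entry π' hT i j) (aug_entry π' hT k l)

/-- the matrix `x̄` over `A`. -/
def xmat : Matrix (Fin 2) (Fin 2) (SqQuot π') := Matrix.of fun i j => xbar π' T i j

theorem map_mkQ_eq : T.map (mkQ π') = 1 + xmat π' T := by
  ext i j
  simp only [Matrix.map_apply, Matrix.add_apply, xmat, Matrix.of_apply, xbar, map_sub]
  have h1 : mkQ π' ((1 : Matrix (Fin 2) (Fin 2) R') i j) =
      (1 : Matrix (Fin 2) (Fin 2) (SqQuot π')) i j := by
    by_cases hij : i = j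
    · subst hij; simp
    · simp [Matrix.one_apply_ne hij]
  rw [h1]; ring

variable {T} in
theorem xmat_mul_self (hT : T.map π' = 1) : xmat π' T * xmat π' T = 0 := by
  ext i j
  simp only [Matrix.mul_apply, xmat, Matrix.of_apply, Matrix.zero_apply,
    xbar_mul_xbar π' hT, Finset.sum_const_zero]

variable {F T q} in
/-- `F̃ x̄ = q x̄ F̃` in `M₂(A)`. -/
theorem map_mul_xmat (hT : T.map π' = 1) (hrel : F * T = T ^ q * F) :
    F.map (mkQ π') * xmat π' T = q • (xmat π' T * F.map (mkQ π')) := by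
  have h := congrArg (fun M => (mkQ π' : R' →+* SqQuot π').mapMatrix M) hrel
  simp only [map_mul, map_pow, RingHom.mapMatrix_apply] at h
  have hcoe : ∀ M : Matrix (Fin 2) (Fin 2) R',
      M.map ((mkQ π' : R' →+* SqQuot π') : R' → SqQuot π') = M.map (mkQ π') := fun _ => rfl
  rw [hcoe, hcoe, map_mkQ_eq π' T, one_add_pow_of_mul_self_eq_zero _ (xmat_mul_self π' hT), mul_add,
    add_mul, mul_one, one_mul, smul_mul_assoc] at h
  exact add_left_cancel h

variable {T} in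
/-- `x̄₁₁ = − x̄₀₀` (from `det T = 1`). -/
theorem xbar_one_one (hT : T.map π' = 1) (hdet : T.det = 1) :
    xbar π' T 1 1 = - xbar π' T 0 0 := by
  have h := congrArg (mkQ π' : R' →+* SqQuot π') hdet
  rw [RingHom.map_det, RingHom.mapMatrix_apply, map_one] at h
  have hcoe : T.map ((mkQ π' : R' →+* SqQuot π') : R' → SqQuot π') = T.map (mkQ π') := rfl
  rw [hcoe, map_mkQ_eq, Matrix.det_fin_two] at h
  simp only [Matrix.add_apply, Matrix.one_apply_eq, xmat, Matrix.of_apply, ne_eq, zero_ne_one,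
    not_false_eq_true, Matrix.one_apply_ne, one_ne_zero, zero_add] at h
  have h00 := xbar_mul_xbar π' hT 0 0 1 1
  have h01 := xbar_mul_xbar π' hT 0 1 1 0
  have : xbar π' T 0 0 + xbar π' T 1 1 = 0 := by
    linear_combination h - h00 + h01
  exact eq_neg_of_add_eq_zero_right this

/-- `F₀ = π'(F) ∈ M₂(O)`. -/
def F0 : Matrix (Fin 2) (Fin 2) O := F.map π'

variable {F T q} in
/-- **The relation matrix kills `(x̄₀₀, x̄₀₁, x̄₁₀)`.** -/
theorem Bmat_xbar (hT : T.map π' = 1) (hdet : T.det = 1) (hrel : F * T = T ^ q * F) :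
    (Bmat (F0 π' F) (q : O) 0 0 • xbar π' T 0 0 + Bmat (F0 π' F) (q : O) 0 1 • xbar π' T 0 1
      + Bmat (F0 π' F) (q : O) 0 2 • xbar π' T 1 0 = 0) ∧
    (Bmat (F0 π' F) (q : O) 1 0 • xbar π' T 0 0 + Bmat (F0 π' F) (q : O) 1 1 • xbar π' T 0 1
      + Bmat (F0 π' F) (q : O) 1 2 • xbar π' T 1 0 = 0) ∧
    (Bmat (F0 π' F) (q : O) 2 0 • xbar π' T 0 0 + Bmat (F0 π' F) (q : O) 2 1 • xbar π' T 0 1
      + Bmat (F0 π' F) (q : O) 2 2 • xbar π' T 1 0 = 0) := by
  have hmain := map_mul_xmat π' hT hrel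
  have h11 := xbar_one_one π' hT hdet
  -- entry equations
  have hL : ∀ i j : Fin 2, (F.map (mkQ π') * xmat π' T) i j =
      F0 π' F i 0 • xbar π' T 0 j + F0 π' F i 1 • xbar π' T 1 j := by
    intro i j
    rw [Matrix.mul_apply, Fin.sum_univ_two]
    simp only [Matrix.map_apply, xmat, Matrix.of_apply, F0, xbar]
    rw [mkQ_mul_eq_smul π' _ (aug_entry π' hT 0 j), mkQ_mul_eq_smul π' _ (aug_entry π' hT 1 j)]
  have hR : ∀ i j : Fin 2, (xmat π' T * F.map (mkQ π')) i j =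
      F0 π' F 0 j • xbar π' T i 0 + F0 π' F 1 j • xbar π' T i 1 := by
    intro i j
    rw [Matrix.mul_apply, Fin.sum_univ_two]
    simp only [Matrix.map_apply, xmat, Matrix.of_apply, F0, xbar]
    rw [mul_comm, mkQ_mul_eq_smul π' _ (aug_entry π' hT i 0), mul_comm (mkQ π' _) (mkQ π' (F 1 j)),
      mkQ_mul_eq_smul π' _ (aug_entry π' hT i 1)]
  have hE : ∀ i j : Fin 2, F0 π' F i 0 • xbar π' T 0 j + F0 π' F i 1 • xbar π' T 1 j =
      (q : O) • (F0 π' F 0 j • xbar π' T i 0 + F0 π' F 1 j • xbar π' T i 1) := by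
    intro i j
    have h := congrFun (congrFun hmain i) j
    rw [Matrix.smul_apply, hL, hR] at h
    rw [h, Nat.cast_smul_eq_nsmul]
  have e00 := hE 0 0
  have e01 := hE 0 1
  have e10 := hE 1 0
  have e11 := hE 1 1
  rw [h11] at e01 e10 e11
  exact Bmat_rel (F0 π' F) (q : O) (xbar π' T 0 0) (xbar π' T 0 1) (xbar π' T 1 0) e00 e01 e10 e11

end Rel

end Fermat.Agent.GE9.TanGrow
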