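/-
GE9-TANGROW-ALG (S59 pre-work, E9b, helper63) — file 4: the one-prime tangent growth bound.

`π' : R' →ₐ[O] O`, `π : R →ₐ[O] O` augmented `O`-algebras (`O` a DVR with finite residue field),
`f : R' ↠ R` compatible with the augmentations, `F T ∈ M₂(R')` with `T ≡ 1 mod 𝔭'`, `det T = 1`,
`F T = T^q F`, and `ker f ≤ (entries of T − 1)`.  Then

  `#(𝔭'/𝔭'²) ≤ #(O ⧸ (c)) · #(𝔭/𝔭²)`,   `c = cFactor (π' F) q = D²(1 − q)(D(1 + q)² − q a²)`.

No Galois cohomology: this IS the Selmer-growth step `Σ → Σ ∪ {q}` of the Wiles numerical-criterion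
induction (with `T = ρ'(τ)`, `τ` a generator of the pro-`p` tame inertia at `q`, `F = ρ'(Frob_q)`).
-/
import Mathlib
import Fermat.Agent.GE9.TanGrow.SpanCard
import Fermat.Agent.GE9.TanGrow.SqZero

set_option autoImplicit false

namespace Fermat.Agent.GE9.TanGrow

open Matrix

/-- `#(I/I²)` as a relative index. -/
theorem card_cotangent_eq_relIndex {R : Type*} [CommRing R] (I : Ideal R) :
    Nat.card I.Cotangent = (I ^ 2).toAddSubgroup.relIndex I.toAddSubgroup := by
  let ψ : I.toAddSubgroup →+ I.Cotangent :=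
    { toFun := fun x => I.toCotangent ⟨x.1, x.2⟩
      map_zero' := by
        have : (⟨((0 : I.toAddSubgroup) : R), (0 : I.toAddSubgroup).2⟩ : I) = 0 := rfl
        rw [this, map_zero]
      map_add' := fun x y => by
        have : (⟨((x + y : I.toAddSubgroup) : R), (x + y).2⟩ : I) =
            (⟨x.1, x.2⟩ : I) + ⟨y.1, y.2⟩ := rfl
        rw [this, map_add] }
  have hsurj : Function.Surjective ψ := by
    intro y
    obtain ⟨x, rfl⟩ := Ideal.toCotangent_surjective I y
    exact ⟨⟨x.1, x.2⟩, rfl⟩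
  have hker : ψ.ker = (I ^ 2).toAddSubgroup.addSubgroupOf I.toAddSubgroup := by
    ext x
    rw [AddMonoidHom.mem_ker, AddSubgroup.mem_addSubgroupOf]
    exact Ideal.toCotangent_eq_zero I ⟨x.1, x.2⟩
  have h := AddSubgroup.index_ker ψ
  rw [AddMonoidHom.range_eq_top.mpr hsurj, hker] at h
  rw [AddSubgroup.relIndex, h]
  exact (Nat.card_congr (Equiv.Set.univ _)).symm

variable {O R' : Type*} [CommRing O] [CommRing R'] [Algebra O R'] (π' : R' →ₐ[O] O)

/-- the ideal of `R'` generated by the entries of `T − 1`. -/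
def entryIdeal (T : Matrix (Fin 2) (Fin 2) R') : Ideal R' :=
  Ideal.span (Set.range fun ij : Fin 2 × Fin 2 =>
    T ij.1 ij.2 - (1 : Matrix (Fin 2) (Fin 2) R') ij.1 ij.2)

variable (F T : Matrix (Fin 2) (Fin 2) R') (q : ℕ)

variable {T} in
theorem entryIdeal_le (hT : T.map π' = 1) : entryIdeal T ≤ augIdeal π' := by
  rw [entryIdeal, Ideal.span_le]
  rintro _ ⟨ij, rfl⟩
  exact (mem_augIdeal π').mpr (aug_entry π' hT ij.1 ij.2)

/-- the `O`-span of `x̄₀₀, x̄₀₁, x̄₁₀` in `A = R' ⧸ 𝔭'²`. -/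
def Kspan : Submodule O (SqQuot π') :=
  Submodule.span O (Set.range ![xbar π' T 0 0, xbar π' T 0 1, xbar π' T 1 0])

variable {T} in
theorem mkQ_mem_Kspan (hT : T.map π' = 1) (hdet : T.det = 1) {r : R'} (hr : r ∈ entryIdeal T) :
    mkQ π' r ∈ Kspan π' T := by
  have hgen : ∀ i : Fin 3, ![xbar π' T 0 0, xbar π' T 0 1, xbar π' T 1 0] i ∈ Kspan π' T :=
    fun i => Submodule.subset_span ⟨i, rfl⟩
  have h00 : xbar π' T 0 0 ∈ Kspan π' T := hgen 0
  have h01 : xbar π' T 0 1 ∈ Kspan π' T := hgen 1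
  have h10 : xbar π' T 1 0 ∈ Kspan π' T := hgen 2
  have h11 : xbar π' T 1 1 ∈ Kspan π' T := by
    rw [xbar_one_one π' hT hdet]; exact (Kspan π' T).neg_mem h00
  have key : π' r = 0 ∧ mkQ π' r ∈ Kspan π' T := by
    rw [entryIdeal] at hr
    induction hr using Submodule.span_induction with
    | mem x hx =>
      obtain ⟨⟨i, j⟩, rfl⟩ := hx
      refine ⟨aug_entry π' hT i j, ?_⟩
      change xbar π' T i j ∈ Kspan π' T
      fin_cases i <;> fin_cases j
      · exact h00
      · exact h01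
      · exact h10
      · exact h11
    | zero => exact ⟨map_zero _, by rw [map_zero]; exact Submodule.zero_mem _⟩
    | add x y _ _ hx hy =>
      exact ⟨by rw [map_add, hx.1, hy.1, add_zero], by rw [map_add]; exact Submodule.add_mem _ hx.2 hy.2⟩
    | smul a x _ hx =>
      refine ⟨by rw [smul_eq_mul, map_mul, hx.1, mul_zero], ?_⟩
      rw [smul_eq_mul, map_mul, mkQ_mul_eq_smul π' a hx.1]
      exact Submodule.smul_mem _ _ hx.2
  exact key.2

section DVR

variable [IsDomain O] [IsDiscreteValuationRing O] [Finite (IsLocalRing.ResidueField O)]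

variable {F T q} in
theorem card_Kspan_le (hT : T.map π' = 1) (hdet : T.det = 1) (hrel : F * T = T ^ q * F)
    (hc : cFactor (F0 π' F) (q : O) ≠ 0) :
    Finite (Kspan π' T) ∧
      Nat.card (Kspan π' T) ≤ Nat.card (O ⧸ Ideal.span {cFactor (F0 π' F) (q : O)}) := by
  have hB := Bmat_xbar π' hT hdet hrel
  have hdetB : (Bmat (F0 π' F) (q : O)).det ≠ 0 := by rw [det_Bmat]; exact hc
  have h := card_span_range_le ![xbar π' T 0 0, xbar π' T 0 1, xbar π' T 1 0]
    (Bmat (F0 π' F) (q : O)) hdetB (by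
      intro i
      rw [Fin.sum_univ_three]
      fin_cases i
      · exact hB.1
      · exact hB.2.1
      · exact hB.2.2)
  rw [det_Bmat] at h
  exact h

variable {R : Type*} [CommRing R] [Algebra O R] (π : R →ₐ[O] O)

variable {F T q} in
/-- **One-prime tangent growth, relative-index form.** -/
theorem relIndex_le_mul (f : R' →ₐ[O] R) (hf : Function.Surjective f) (hπ : π.comp f = π')
    (hT : T.map π' = 1) (hdet : T.det = 1) (hrel : F * T = T ^ q * F)
    (hker : RingHom.ker (f : R' →+* R) ≤ entryIdeal T)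
    (hc : cFactor (F0 π' F) (q : O) ≠ 0)
    (hfin : ((augIdeal π) ^ 2).toAddSubgroup.relIndex (augIdeal π).toAddSubgroup ≠ 0) :
    ((augIdeal π') ^ 2).toAddSubgroup.relIndex (augIdeal π').toAddSubgroup ≤
      Nat.card (O ⧸ Ideal.span {cFactor (F0 π' F) (q : O)}) *
        ((augIdeal π) ^ 2).toAddSubgroup.relIndex (augIdeal π).toAddSubgroup := by
  classical
  set P : AddSubgroup R' := (augIdeal π').toAddSubgroup with hP
  set P2 : AddSubgroup R' := ((augIdeal π') ^ 2).toAddSubgroup with hP2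
  set L : Ideal R' := entryIdeal T ⊔ (augIdeal π') ^ 2 with hL
  set Lg : AddSubgroup R' := L.toAddSubgroup with hLg
  have hP2L : P2 ≤ Lg := fun r hr => (le_sup_right : (augIdeal π') ^ 2 ≤ L) hr
  have hLP : Lg ≤ P := fun r hr =>
    (sup_le (entryIdeal_le π' hT) (Ideal.pow_le_self two_ne_zero) : L ≤ augIdeal π') hr
  -- (a) `[L : 𝔭'²] ≤ #K ≤ #(O/c)`
  let mk : R' →+ SqQuot π' := ((mkQ π' : R' →+* SqQuot π') : R' →+ SqQuot π')
  have hmk : ∀ r, mk r = mkQ π' r := fun _ => rfl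
  have hkermk : mk.ker = P2 := by
    ext r
    rw [AddMonoidHom.mem_ker, hmk, mkQ_eq_zero_iff]
    rfl
  obtain ⟨hKfin, hKcard⟩ := card_Kspan_le π' hT hdet hrel hc
  have ha : P2.relIndex Lg ≤ Nat.card (O ⧸ Ideal.span {cFactor (F0 π' F) (q : O)}) := by
    rw [← hkermk, AddSubgroup.relIndex_ker]
    refine le_trans ?_ hKcard
    have hsub : ((Lg.map mk : AddSubgroup (SqQuot π')) : Set (SqQuot π')) ⊆
        ((Kspan π' T : Submodule O (SqQuot π')) : Set (SqQuot π')) := by
      rintro _ ⟨r, hr, rfl⟩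
      obtain ⟨j, hj, s, hs, rfl⟩ := Submodule.mem_sup.mp (show r ∈ L from hr)
      have hs0 : mk s = 0 := by rw [hmk, mkQ_eq_zero_iff]; exact hs
      rw [map_add, hs0, add_zero, hmk]
      exact mkQ_mem_Kspan π' hT hdet hj
    exact Nat.card_mono (Set.toFinite _) hsub
  -- (b) `[𝔭' : L] ≤ [𝔭 : 𝔭²]`
  let fa : R' →+ R := ((f : R' →+* R) : R' →+ R)
  have hfa : ∀ r, fa r = f r := fun _ => rfl
  have hπ' : ∀ r, π (f r) = π' r := fun r => by rw [← hπ]; rfl
  set Q : AddSubgroup R := (augIdeal π).toAddSubgroup with hQ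
  set Q2 : AddSubgroup R := ((augIdeal π) ^ 2).toAddSubgroup with hQ2
  have hmapP : P.map fa = Q := by
    ext y
    constructor
    · rintro ⟨r, hr, rfl⟩
      change f r ∈ augIdeal π
      rw [mem_augIdeal, hπ']
      exact (mem_augIdeal π').mp hr
    · intro hy
      obtain ⟨r, rfl⟩ := hf y
      refine ⟨r, ?_, rfl⟩
      change r ∈ augIdeal π'
      rw [mem_augIdeal, ← hπ']
      exact (mem_augIdeal π).mp hy
  have hmapI : (augIdeal π').map (f : R' →+* R) = augIdeal π := by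
    apply le_antisymm
    · rw [Ideal.map_le_iff_le_comap]
      intro r hr
      rw [Ideal.mem_comap]
      change (f : R' →+* R) r ∈ augIdeal π
      rw [mem_augIdeal]
      exact (hπ' r).trans ((mem_augIdeal π').mp hr)
    · intro y hy
      obtain ⟨r, rfl⟩ := hf y
      refine Ideal.mem_map_of_mem _ ?_
      rw [mem_augIdeal, ← hπ']
      exact (mem_augIdeal π).mp hy
  have hcomap : Q2.comap fa ≤ Lg := by
    intro r hr
    have hr' : (f : R' →+* R) r ∈ (augIdeal π) ^ 2 := hr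
    rw [← hmapI, ← Ideal.map_pow] at hr'
    have h2 : r ∈ Ideal.comap (f : R' →+* R) (Ideal.map (f : R' →+* R) ((augIdeal π') ^ 2)) :=
      Ideal.mem_comap.mpr hr'
    rw [Ideal.comap_map_of_surjective (f : R' →+* R) hf, ← RingHom.ker_eq_comap_bot] at h2
    obtain ⟨s, hs, k, hk, rfl⟩ := Submodule.mem_sup.mp h2
    change s + k ∈ L
    exact L.add_mem (le_sup_right (a := entryIdeal T) hs) (le_sup_left (b := (augIdeal π') ^ 2) (hker hk))
  have hrelc : (Q2.comap fa).relIndex P = Q2.relIndex Q := by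
    rw [AddSubgroup.relIndex_comap, hmapP]
  have hb : Lg.relIndex P ≤ Q2.relIndex Q := by
    rw [← hrelc]
    exact AddSubgroup.relIndex_le_of_le_left hcomap (by rw [hrelc]; exact hfin)
  -- (c) multiplicativity
  have hmul := AddSubgroup.relIndex_mul_relIndex P2 Lg P hP2L hLP
  rw [← hmul]
  exact Nat.mul_le_mul ha hb

variable {F T q} in
/-- **One-prime tangent growth, cotangent form:**
`#(𝔭'/𝔭'²) ≤ #(O ⧸ (c)) · #(𝔭/𝔭²)`. -/
theorem card_cotangent_le_mul (f : R' →ₐ[O] R) (hf : Function.Surjective f)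
    (hπ : π.comp f = π')
    (hT : T.map π' = 1) (hdet : T.det = 1) (hrel : F * T = T ^ q * F)
    (hker : RingHom.ker (f : R' →+* R) ≤ entryIdeal T)
    (hc : cFactor (F0 π' F) (q : O) ≠ 0)
    [Finite (augIdeal π).Cotangent] :
    Nat.card (augIdeal π').Cotangent ≤
      Nat.card (O ⧸ Ideal.span {cFactor (F0 π' F) (q : O)}) *
        Nat.card (augIdeal π).Cotangent := by
  rw [card_cotangent_eq_relIndex, card_cotangent_eq_relIndex]
  refine relIndex_le_mul π' π f hf hπ hT hdet hrel hker hc ?_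
  rw [← card_cotangent_eq_relIndex]
  exact Nat.card_pos.ne'

/-- Wiles' local factor `c_q = (q − 1)((1 + q)² − a²)`, `a = tr F₀`. -/
def wilesFactor (f : Matrix (Fin 2) (Fin 2) O) (q : O) : O :=
  (q - 1) * ((1 + q) ^ 2 - f.trace ^ 2)

omit [IsDomain O] [IsDiscreteValuationRing O] [Finite (IsLocalRing.ResidueField O)] in
/-- for `det F₀ = q` a unit, `cFactor` and `wilesFactor` are associated. -/
theorem associated_cFactor_wilesFactor (f : Matrix (Fin 2) (Fin 2) O) (q : O) (hq : IsUnit q)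
    (hdetf : f.det = q) : Associated (cFactor f q) (wilesFactor f q) := by
  obtain ⟨v, rfl⟩ := hq
  refine ⟨-(v⁻¹ ^ 3), ?_⟩
  rw [cFactor_of_det_eq f _ hdetf, wilesFactor, Units.val_neg, Units.val_pow_eq_pow_val]
  have h1 : (v : O) * ((v⁻¹ : Oˣ) : O) = 1 := Units.mul_inv v
  have h3 : (v : O) ^ 3 * ((v⁻¹ : Oˣ) : O) ^ 3 = 1 := by rw [← mul_pow, h1, one_pow]
  linear_combination (-((1 - (v : O)) * ((1 + (v : O)) ^ 2 - f.trace ^ 2))) * h3

variable {F T q} in
/-- **One-prime tangent growth with Wiles' factor** (`det F₀ = q` a unit of `O`):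
`#(𝔭'/𝔭'²) ≤ #(O ⧸ ((q − 1)((1 + q)² − a_q²))) · #(𝔭/𝔭²)`. -/
theorem card_cotangent_le_mul_wiles (f : R' →ₐ[O] R) (hf : Function.Surjective f)
    (hπ : π.comp f = π')
    (hT : T.map π' = 1) (hdet : T.det = 1) (hrel : F * T = T ^ q * F)
    (hker : RingHom.ker (f : R' →+* R) ≤ entryIdeal T)
    (hq : IsUnit (q : O)) (hdetF : (F0 π' F).det = (q : O))
    (hc : wilesFactor (F0 π' F) (q : O) ≠ 0)
    [Finite (augIdeal π).Cotangent] :
    Nat.card (augIdeal π').Cotangent ≤
      Nat.card (O ⧸ Ideal.span {wilesFactor (F0 π' F) (q : O)}) *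
        Nat.card (augIdeal π).Cotangent := by
  have hass := associated_cFactor_wilesFactor (F0 π' F) (q : O) hq hdetF
  have hc' : cFactor (F0 π' F) (q : O) ≠ 0 := fun h0 => hc (hass.eq_zero_iff.mp h0)
  rw [← Fermat.Agent.GE9.NumCrit.card_quotient_span_of_associated hass]
  exact card_cotangent_le_mul π' π f hf hπ hT hdet hrel hker hc'

end DVR

end Fermat.Agent.GE9.TanGrow
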