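/-
GE9-TANGROW-ALG (S59 pre-work, E9b, helper63) — file 5: FINITENESS of the bigger cotangent space and
the growth bound in the `RingHom.ker π` spelling of `GE9/NumCrit/Wrapper.numcrit`.

Under the hypotheses of `card_cotangent_le_mul_wiles`, `𝔭'/𝔭'²` is FINITE (so the inequality is not
the vacuous `0 ≤ _`), and the statement is re-exported with `RingHom.ker π` (an `AlgHom` coerced by
`RingHomClass`, as in `numcrit`) in place of `augIdeal π`.
-/
import Mathlib
import Fermat.Agent.GE9.TanGrow.Main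

set_option autoImplicit false

namespace Fermat.Agent.GE9.TanGrow

open Matrix

variable {O R' R : Type*} [CommRing O] [CommRing R'] [Algebra O R'] [CommRing R] [Algebra O R]

/-- `augIdeal π` is `RingHom.ker π` (the `AlgHom` itself as the ring-hom-class element). -/
theorem augIdeal_eq_ker (π : R →ₐ[O] O) : augIdeal π = RingHom.ker π := rfl

variable [IsDomain O] [IsDiscreteValuationRing O] [Finite (IsLocalRing.ResidueField O)]

variable (π' : R' →ₐ[O] O) (π : R →ₐ[O] O) {F T : Matrix (Fin 2) (Fin 2) R'} {q : ℕ}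

/-- relative-index form: the bigger index is nonzero. -/
theorem relIndex_ne_zero (f : R' →ₐ[O] R) (hf : Function.Surjective f) (hπ : π.comp f = π')
    (hT : T.map π' = 1) (hdet : T.det = 1) (hrel : F * T = T ^ q * F)
    (hker : RingHom.ker (f : R' →+* R) ≤ entryIdeal T)
    (hc : cFactor (F0 π' F) (q : O) ≠ 0)
    (hfin : ((augIdeal π) ^ 2).toAddSubgroup.relIndex (augIdeal π).toAddSubgroup ≠ 0) :
    ((augIdeal π') ^ 2).toAddSubgroup.relIndex (augIdeal π').toAddSubgroup ≠ 0 := by
  classical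
  set P : AddSubgroup R' := (augIdeal π').toAddSubgroup with hP
  set P2 : AddSubgroup R' := ((augIdeal π') ^ 2).toAddSubgroup with hP2
  set L : Ideal R' := entryIdeal T ⊔ (augIdeal π') ^ 2 with hL
  set Lg : AddSubgroup R' := L.toAddSubgroup with hLg
  have hP2L : P2 ≤ Lg := fun r hr => (le_sup_right : (augIdeal π') ^ 2 ≤ L) hr
  have hLP : Lg ≤ P := fun r hr =>
    (sup_le (entryIdeal_le π' hT) (Ideal.pow_le_self two_ne_zero) : L ≤ augIdeal π') hr
  -- (a) `[L : 𝔭'²] ≠ 0`
  let mk : R' →+ SqQuot π' := ((mkQ π' : R' →+* SqQuot π') : R' →+ SqQuot π')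
  have hmk : ∀ r, mk r = mkQ π' r := fun _ => rfl
  have hkermk : mk.ker = P2 := by
    ext r
    rw [AddMonoidHom.mem_ker, hmk, mkQ_eq_zero_iff]
    rfl
  obtain ⟨hKfin, -⟩ := card_Kspan_le π' hT hdet hrel hc
  have ha : P2.relIndex Lg ≠ 0 := by
    rw [← hkermk, AddSubgroup.relIndex_ker]
    have hsub : ((Lg.map mk : AddSubgroup (SqQuot π')) : Set (SqQuot π')) ⊆
        ((Kspan π' T : Submodule O (SqQuot π')) : Set (SqQuot π')) := by
      rintro _ ⟨r, hr, rfl⟩
      obtain ⟨j, hj, s, hs, rfl⟩ := Submodule.mem_sup.mp (show r ∈ L from hr)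
      have hs0 : mk s = 0 := by rw [hmk, mkQ_eq_zero_iff]; exact hs
      rw [map_add, hs0, add_zero, hmk]
      exact mkQ_mem_Kspan π' hT hdet hj
    have hfinS : ((Lg.map mk : AddSubgroup (SqQuot π')) : Set (SqQuot π')).Finite :=
      (Set.toFinite _).subset hsub
    have : Finite (Lg.map mk : AddSubgroup (SqQuot π')) := hfinS
    exact Nat.card_pos.ne'
  -- (b) `[𝔭' : L] ≠ 0`
  let fa : R' →+ R := ((f : R' →+* R) : R' →+ R)
  have hπ' : ∀ r, π (f r) = π' r := fun r => by rw [← hπ]; rfl
  set Q : AddSubgroup R := (augIdeal π).toAddSubgroup with hQ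
  set Q2 : AddSubgroup R := ((augIdeal π) ^ 2).toAddSubgroup with hQ2
  have hmapP : P.map fa = Q := by
    ext y
    constructor
    · rintro ⟨r, hr, rfl⟩
      change f r ∈ augIdeal π
      rw [mem_augIdeal, hπ']
      exact (mem_augIdeal π').mp hr
    · intro hy
      obtain ⟨r, rfl⟩ := hf y
      refine ⟨r, ?_, rfl⟩
      change r ∈ augIdeal π'
      rw [mem_augIdeal, ← hπ']
      exact (mem_augIdeal π).mp hy
  have hmapI : (augIdeal π').map (f : R' →+* R) = augIdeal π := by
    apply le_antisymm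
    · rw [Ideal.map_le_iff_le_comap]
      intro r hr
      rw [Ideal.mem_comap]
      change (f : R' →+* R) r ∈ augIdeal π
      rw [mem_augIdeal]
      exact (hπ' r).trans ((mem_augIdeal π').mp hr)
    · intro y hy
      obtain ⟨r, rfl⟩ := hf y
      refine Ideal.mem_map_of_mem _ ?_
      rw [mem_augIdeal, ← hπ']
      exact (mem_augIdeal π).mp hy
  have hcomap : Q2.comap fa ≤ Lg := by
    intro r hr
    have hr' : (f : R' →+* R) r ∈ (augIdeal π) ^ 2 := hr
    rw [← hmapI, ← Ideal.map_pow] at hr'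
    have h2 : r ∈ Ideal.comap (f : R' →+* R) (Ideal.map (f : R' →+* R) ((augIdeal π') ^ 2)) :=
      Ideal.mem_comap.mpr hr'
    rw [Ideal.comap_map_of_surjective (f : R' →+* R) hf, ← RingHom.ker_eq_comap_bot] at h2
    obtain ⟨s, hs, k, hk, rfl⟩ := Submodule.mem_sup.mp h2
    change s + k ∈ L
    exact L.add_mem (le_sup_right (a := entryIdeal T) hs)
      (le_sup_left (b := (augIdeal π') ^ 2) (hker hk))
  have hrelc : (Q2.comap fa).relIndex P = Q2.relIndex Q := by
    rw [AddSubgroup.relIndex_comap, hmapP]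
  have hb : Lg.relIndex P ≠ 0 := by
    have hdvd : Lg.relIndex P ∣ (Q2.comap fa).relIndex P :=
      AddSubgroup.relIndex_dvd_of_le_left P hcomap
    rw [hrelc] at hdvd
    exact fun h0 => hfin (Nat.eq_zero_of_zero_dvd (h0 ▸ hdvd))
  have hmul := AddSubgroup.relIndex_mul_relIndex P2 Lg P hP2L hLP
  rw [← hmul]
  exact Nat.mul_ne_zero ha hb

/-- **Finiteness of the bigger cotangent space.** -/
theorem finite_cotangent (f : R' →ₐ[O] R) (hf : Function.Surjective f) (hπ : π.comp f = π')
    (hT : T.map π' = 1) (hdet : T.det = 1) (hrel : F * T = T ^ q * F)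
    (hker : RingHom.ker (f : R' →+* R) ≤ entryIdeal T)
    (hc : cFactor (F0 π' F) (q : O) ≠ 0)
    [Finite (RingHom.ker π).Cotangent] :
    Finite (RingHom.ker π').Cotangent := by
  have hfin : ((augIdeal π) ^ 2).toAddSubgroup.relIndex (augIdeal π).toAddSubgroup ≠ 0 := by
    rw [← card_cotangent_eq_relIndex]
    exact (Nat.card_pos (α := (RingHom.ker π).Cotangent)).ne'
  have h := relIndex_ne_zero π' π f hf hπ hT hdet hrel hker hc hfin
  rw [← card_cotangent_eq_relIndex] at h
  exact Nat.finite_of_card_ne_zero h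

/-- **One-prime tangent growth in `numcrit`'s spelling, with finiteness**
(`det F₀ = q` a unit of `O`). -/
theorem finite_and_card_cotangent_le_mul_wiles (f : R' →ₐ[O] R) (hf : Function.Surjective f)
    (hπ : π.comp f = π')
    (hT : T.map π' = 1) (hdet : T.det = 1) (hrel : F * T = T ^ q * F)
    (hker : RingHom.ker (f : R' →+* R) ≤ entryIdeal T)
    (hq : IsUnit (q : O)) (hdetF : (F0 π' F).det = (q : O))
    (hc : wilesFactor (F0 π' F) (q : O) ≠ 0)
    [Finite (RingHom.ker π).Cotangent] :
    Finite (RingHom.ker π').Cotangent ∧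
      Nat.card (RingHom.ker π').Cotangent ≤
        Nat.card (RingHom.ker π).Cotangent *
          Nat.card (O ⧸ Ideal.span {wilesFactor (F0 π' F) (q : O)}) := by
  have hass := associated_cFactor_wilesFactor (F0 π' F) (q : O) hq hdetF
  have hc' : cFactor (F0 π' F) (q : O) ≠ 0 := fun h0 => hc (hass.eq_zero_iff.mp h0)
  refine ⟨finite_cotangent π' π f hf hπ hT hdet hrel hker hc', ?_⟩
  have hinst : Finite (augIdeal π).Cotangent :=
    (inferInstance : Finite (RingHom.ker π).Cotangent)
  rw [mul_comm]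
  exact card_cotangent_le_mul_wiles π' π f hf hπ hT hdet hrel hker hq hdetF hc

end Fermat.Agent.GE9.TanGrow
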