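/-
GE9-TANGROW-ALG (S59 pre-work, E9b, helper63) — file 1: the 3×3 relation matrix.

For `F₀ = !![f₁₁, f₁₂; f₂₁, f₂₂] ∈ M₂(O)` and a scalar `q`, `Bmat f q` is the matrix (in the basis
`E₁₁ − E₂₂, E₁₂, E₂₁` of trace-zero matrices) of the operator `y ↦ D • y − q • adj(F₀) y F₀`,
`D = det F₀`.  Its determinant is `D² (1 − q) (D (1 + q)² − q a²)`, `a = tr F₀`; for `D = q` this is
`q³ (1 − q) ((1 + q)² − a²)`: Wiles' local factor `c_q` up to a unit.

If a trace-zero "matrix" `x̄ = (u, v; w, −u)` with entries in an `O`-module satisfies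
`F₀ x̄ = q x̄ F₀`, then `Bmat f q` kills the column `(u, v, w)`.
Mathlib only.
-/
import Mathlib

set_option autoImplicit false

namespace Fermat.Agent.GE9.TanGrow

open Matrix

variable {O : Type*} [CommRing O]

/-- the relation matrix of `y ↦ D • y − q • adj(F₀) y F₀` on trace-zero matrices. -/
def Bmat (f : Matrix (Fin 2) (Fin 2) O) (q : O) : Matrix (Fin 3) (Fin 3) O :=
  !![f.det - q * (f 0 0 * f 1 1 + f 0 1 * f 1 0), -(q * (f 1 0 * f 1 1)), q * (f 0 0 * f 0 1);
     -(2 * q * (f 0 1 * f 1 1)), f.det - q * (f 1 1 * f 1 1), q * (f 0 1 * f 0 1);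
     2 * q * (f 0 0 * f 1 0), q * (f 1 0 * f 1 0), f.det - q * (f 0 0 * f 0 0)]

/-- the local factor: `det (Bmat f q)`. -/
def cFactor (f : Matrix (Fin 2) (Fin 2) O) (q : O) : O :=
  f.det ^ 2 * (1 - q) * (f.det * (1 + q) ^ 2 - q * f.trace ^ 2)

theorem det_Bmat (f : Matrix (Fin 2) (Fin 2) O) (q : O) : (Bmat f q).det = cFactor f q := by
  rw [Bmat, cFactor, Matrix.det_fin_three, Matrix.det_fin_two, Matrix.trace_fin_two]
  simp only [Matrix.of_apply, Matrix.cons_val', Matrix.cons_val_zero, Matrix.cons_val_one,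
    Matrix.cons_val_two, Matrix.head_cons, Matrix.tail_cons, Matrix.empty_val',
    Matrix.cons_val_fin_one, Matrix.head_fin_const]
  ring

/-- `cFactor` when `det F₀ = q`: `q³ (1 − q) ((1 + q)² − a²)`. -/
theorem cFactor_of_det_eq (f : Matrix (Fin 2) (Fin 2) O) (q : O) (hdet : f.det = q) :
    cFactor f q = q ^ 3 * ((1 - q) * ((1 + q) ^ 2 - f.trace ^ 2)) := by
  rw [cFactor, hdet]; ring

section Module

variable {Φ : Type*} [AddCommGroup Φ] [Module O Φ]

/-- **The relation.**  If `x̄ = (u, v; w, −u)` has entries in an `O`-module and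
`F₀ x̄ = q x̄ F₀` (four entry equations), then `Bmat f q` kills `(u, v, w)`. -/
theorem Bmat_rel (f : Matrix (Fin 2) (Fin 2) O) (q : O) (u v w : Φ)
    (h11 : f 0 0 • u + f 0 1 • w = q • (f 0 0 • u + f 1 0 • v))
    (h12 : f 0 0 • v + f 0 1 • (-u) = q • (f 0 1 • u + f 1 1 • v))
    (h21 : f 1 0 • u + f 1 1 • w = q • (f 0 0 • w + f 1 0 • (-u)))
    (h22 : f 1 0 • v + f 1 1 • (-u) = q • (f 0 1 • w + f 1 1 • (-u))) :
    (Bmat f q 0 0 • u + Bmat f q 0 1 • v + Bmat f q 0 2 • w = 0) ∧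
    (Bmat f q 1 0 • u + Bmat f q 1 1 • v + Bmat f q 1 2 • w = 0) ∧
    (Bmat f q 2 0 • u + Bmat f q 2 1 • v + Bmat f q 2 2 • w = 0) := by
  simp only [Bmat, Matrix.det_fin_two, Matrix.of_apply, Matrix.cons_val', Matrix.cons_val_zero,
    Matrix.cons_val_one, Matrix.cons_val_two, Matrix.head_cons, Matrix.tail_cons,
    Matrix.empty_val', Matrix.cons_val_fin_one, Matrix.head_fin_const]
  refine ⟨?_, ?_, ?_⟩
  · linear_combination (norm := module) f 1 1 • h11 - f 0 1 • h21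
  · linear_combination (norm := module) f 1 1 • h12 - f 0 1 • h22
  · linear_combination (norm := module) -(f 1 0 • h11) + f 0 0 • h21

end Module

end Fermat.Agent.GE9.TanGrow
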